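import Mathlib
import Fermat.Prelude.Def_ModularCurve_GenusNumerics

/-!
# Arithmetic lemmas for the combinatorics of `SL(2,ℤ) ⧸ Γ₀(N)`
-/

set_option autoImplicit false

namespace Fermat.Agent.Lib.Gamma0Comb

open Finset

/-- Number of residues `t < g * m` prime to `g`. -/
theorem card_filter_coprime_range_mul (g m : ℕ) :
    ((range (g * m)).filter (fun t => g.Coprime t)).card = m * g.totient := by
  induction m with
  | zero => simp
  | succ m ih =>
    have h : range (g * (m + 1)) = range (g * m) ∪ Ico (g * m) (g * m + g) := by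
      ext x
      simp only [mem_range, mem_union, mem_Ico, Nat.mul_succ]
      omega
    have hd : Disjoint (range (g * m)) (Ico (g * m) (g * m + g)) := by
      rw [Finset.disjoint_left]
      intro x hx hx'
      simp only [mem_range, mem_Ico] at hx hx'
      omega
    rw [h, filter_union, card_union_of_disjoint (disjoint_filter_filter hd), ih,
      Nat.filter_coprime_Ico_eq_totient]
    ring

/-- the local term of the index formula -/
def psiTerm (d e : ℕ) : ℕ := (e / Nat.gcd d e) * (Nat.gcd d e).totient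

theorem card_filter_coprime_range (d e : ℕ) :
    ((range e).filter (fun t => (Nat.gcd d e).Coprime t)).card = psiTerm d e := by
  have h : Nat.gcd d e * (e / Nat.gcd d e) = e := Nat.mul_div_cancel' (Nat.gcd_dvd_right d e)
  have := card_filter_coprime_range_mul (Nat.gcd d e) (e / Nat.gcd d e)
  rw [h] at this
  exact this

theorem sum_divisors_mul_of_coprime {m n : ℕ} (h : m.Coprime n) (F : ℕ → ℕ) :
    ∑ d ∈ (m * n).divisors, F d = ∑ d₁ ∈ m.divisors, ∑ d₂ ∈ n.divisors, F (d₁ * d₂) := by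
  rw [Nat.divisors_mul, Finset.mul_def, Finset.sum_image (fun x hx y hy hxy =>
    h.mul_injOn_divisors (by simpa using hx) (by simpa using hy) hxy), Finset.sum_product]

theorem psiTerm_mul {d₁ e₁ d₂ e₂ : ℕ} (h : (d₁ * e₁).Coprime (d₂ * e₂)) :
    psiTerm (d₁ * d₂) (e₁ * e₂) = psiTerm d₁ e₁ * psiTerm d₂ e₂ := by
  have hd1d2 : d₁.Coprime d₂ := (h.coprime_mul_right).coprime_mul_right_right
  have hd1e2 : d₁.Coprime e₂ := (h.coprime_mul_right).coprime_mul_left_right
  have he1d2 : e₁.Coprime d₂ := (h.coprime_mul_left).coprime_mul_right_right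
  have he1e2 : e₁.Coprime e₂ := (h.coprime_mul_left).coprime_mul_left_right
  have hg : Nat.gcd (d₁ * d₂) (e₁ * e₂) = Nat.gcd d₁ e₁ * Nat.gcd d₂ e₂ := by
    rw [Nat.Coprime.gcd_mul _ he1e2]
    congr 1
    · exact Nat.Coprime.gcd_mul_right_cancel _ he1d2.symm
    · exact Nat.Coprime.gcd_mul_left_cancel _ hd1e2
  have hgc : (Nat.gcd d₁ e₁).Coprime (Nat.gcd d₂ e₂) :=
    Nat.Coprime.coprime_dvd_left (Nat.gcd_dvd_left _ _)
      (Nat.Coprime.coprime_dvd_right (Nat.gcd_dvd_left _ _) hd1d2)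
  unfold psiTerm
  rw [hg, Nat.totient_mul hgc,
    Nat.mul_div_mul_comm (Nat.gcd_dvd_right d₁ e₁) (Nat.gcd_dvd_right d₂ e₂)]
  ring

/-- the index of `Γ₀(N)` as it comes out of the parametrisation of cosets -/
def indexSum (N : ℕ) : ℕ := ∑ d ∈ N.divisors, psiTerm d (N / d)

theorem indexSum_mul {m n : ℕ} (h : m.Coprime n) : indexSum (m * n) = indexSum m * indexSum n := by
  unfold indexSum
  rw [sum_divisors_mul_of_coprime h, Finset.sum_mul_sum]
  refine Finset.sum_congr rfl fun d₁ h₁ => Finset.sum_congr rfl fun d₂ h₂ => ?_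
  have hd₁ := Nat.dvd_of_mem_divisors h₁
  have hd₂ := Nat.dvd_of_mem_divisors h₂
  rw [Nat.mul_div_mul_comm hd₁ hd₂]
  apply psiTerm_mul
  rw [Nat.mul_div_cancel' hd₁, Nat.mul_div_cancel' hd₂]
  exact h

theorem dedekindPsi_mul {m n : ℕ} (h : m.Coprime n) :
    ModularCurve.dedekindPsi (m * n) = ModularCurve.dedekindPsi m * ModularCurve.dedekindPsi n := by
  unfold ModularCurve.dedekindPsi
  simp only [Finset.sum_filter]
  rw [sum_divisors_mul_of_coprime h, Finset.sum_mul_sum]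
  refine Finset.sum_congr rfl fun d₁ h₁ => Finset.sum_congr rfl fun d₂ h₂ => ?_
  have hd₁ := Nat.dvd_of_mem_divisors h₁
  have hd₂ := Nat.dvd_of_mem_divisors h₂
  have hc : d₁.Coprime d₂ := Nat.Coprime.coprime_dvd_left hd₁ (Nat.Coprime.coprime_dvd_right hd₂ h)
  rw [Nat.mul_div_mul_comm hd₁ hd₂]
  have hsq := Nat.squarefree_mul hc
  by_cases h1 : Squarefree d₁ <;> by_cases h2 : Squarefree d₂ <;> simp [h1, h2, hsq]

theorem psiTerm_one_left (e : ℕ) : psiTerm 1 e = e := by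
  simp [psiTerm]

theorem psiTerm_one_right (d : ℕ) : psiTerm d 1 = 1 := by
  simp [psiTerm]

theorem psiTerm_prime_pow {p a b : ℕ} (hp : p.Prime) (ha : 0 < a) (hb : 0 < b) :
    psiTerm (p ^ a) (p ^ b) = p ^ (b - 1) * (p - 1) := by
  have hg : ∃ m, 0 < m ∧ m ≤ b ∧ Nat.gcd (p ^ a) (p ^ b) = p ^ m := by
    rcases le_total a b with h | h
    · exact ⟨a, ha, h, Nat.gcd_eq_left (pow_dvd_pow p h)⟩
    · exact ⟨b, hb, le_rfl, Nat.gcd_eq_right (pow_dvd_pow p h)⟩
  obtain ⟨m, hm, hmb, hg⟩ := hg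
  unfold psiTerm
  rw [hg, Nat.totient_prime_pow hp hm, Nat.pow_div hmb hp.pos, ← mul_assoc, ← pow_add]
  congr 2
  omega

theorem sum_geom_aux (p j : ℕ) (hp : 0 < p) :
    ∑ i ∈ range j, p ^ (j - i - 1) * (p - 1) + 1 = p ^ j := by
  induction j with
  | zero => simp
  | succ j ih =>
    rw [Finset.sum_range_succ']
    have h : ∀ i, j + 1 - (i + 1) - 1 = j - i - 1 := fun i => by omega
    simp only [h]
    have h2 : p ^ (j + 1 - 0 - 1) * (p - 1) = p ^ j * (p - 1) := by simp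
    rw [h2, add_right_comm, ih, pow_succ]
    obtain ⟨q, rfl⟩ : ∃ q, p = q + 1 := ⟨p - 1, by omega⟩
    simp only [Nat.add_sub_cancel]
    ring

theorem indexSum_prime_pow {p k : ℕ} (hp : p.Prime) (hk : 0 < k) :
    indexSum (p ^ k) = p ^ k + p ^ (k - 1) := by
  obtain ⟨j, rfl⟩ : ∃ j, k = j + 1 := ⟨k - 1, by omega⟩
  unfold indexSum
  rw [Nat.divisors_prime_pow hp, Finset.sum_map]
  simp only [Function.Embedding.coeFn_mk]
  rw [Finset.sum_range_succ, Finset.sum_range_succ']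
  have h1 : ∀ i ∈ range j, psiTerm (p ^ (i + 1)) (p ^ (j + 1) / p ^ (i + 1))
      = p ^ (j - i - 1) * (p - 1) := by
    intro i hi
    have hi' : i < j := Finset.mem_range.mp hi
    rw [Nat.pow_div (by omega) hp.pos, psiTerm_prime_pow hp (by omega) (by omega)]
    congr 2
    omega
  rw [Finset.sum_congr rfl h1, pow_zero, Nat.div_one, psiTerm_one_left,
    Nat.div_self (pow_pos hp.pos _), psiTerm_one_right]
  have := sum_geom_aux p j hp.pos
  simp only [Nat.add_sub_cancel]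
  omega

theorem dedekindPsi_prime_pow {p k : ℕ} (hp : p.Prime) (hk : 0 < k) :
    ModularCurve.dedekindPsi (p ^ k) = p ^ k + p ^ (k - 1) := by
  obtain ⟨j, rfl⟩ : ∃ j, k = j + 1 := ⟨k - 1, by omega⟩
  unfold ModularCurve.dedekindPsi
  rw [Nat.divisors_prime_pow hp, Finset.sum_filter, Finset.sum_map]
  simp only [Function.Embedding.coeFn_mk]
  rw [Finset.sum_range_succ', Finset.sum_range_succ']
  have h1 : ∀ i ∈ range j, (if Squarefree (p ^ (i + 1 + 1)) then p ^ (j + 1) / p ^ (i + 1 + 1) else 0)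
      = 0 := by
    intro i _
    rw [if_neg]
    rw [Nat.squarefree_pow_iff hp.ne_one (by omega)]
    omega
  rw [Finset.sum_congr rfl h1]
  simp only [Finset.sum_const_zero, zero_add, pow_zero, pow_one, Nat.div_one, squarefree_one,
    if_true, hp.squarefree, Nat.add_sub_cancel]
  rw [pow_succ, Nat.mul_div_cancel _ hp.pos]
  ring

theorem indexSum_eq_dedekindPsi (N : ℕ) : indexSum N = ModularCurve.dedekindPsi N := by
  induction N using Nat.recOnPosPrimePosCoprime with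
  | prime_pow p n hp hn => rw [indexSum_prime_pow hp hn, dedekindPsi_prime_pow hp hn]
  | zero => simp [indexSum, ModularCurve.dedekindPsi]
  | one => simp [indexSum, psiTerm]
  | coprime a b _ _ hab ha hb => rw [indexSum_mul hab, dedekindPsi_mul hab, ha, hb]

theorem isCoprime_of_forall_prime (x : ℤ) (d : ℕ)
    (h : ∀ p : ℕ, p.Prime → p ∣ d → ¬ (p : ℤ) ∣ x) : IsCoprime x (d : ℤ) := by
  rw [Int.isCoprime_iff_gcd_eq_one]
  by_contra hne
  obtain ⟨p, hp, hpd⟩ := Nat.exists_prime_and_dvd hne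
  have h1 : (p : ℤ) ∣ x := (Int.natCast_dvd_natCast.mpr hpd).trans (Int.gcd_dvd_left x d)
  have h2 : (p : ℤ) ∣ (d : ℤ) := (Int.natCast_dvd_natCast.mpr hpd).trans (Int.gcd_dvd_right x d)
  exact h p hp (Int.natCast_dvd_natCast.mp h2) h1

/-- An arithmetic progression `t + k e` with `gcd(t, d, e) = 1` contains an element prime to `d`. -/
theorem exists_add_mul_coprime (d e : ℕ) (hd : d ≠ 0) (t : ℤ)
    (h : IsCoprime t ((Nat.gcd d e : ℕ) : ℤ)) :
    ∃ k : ℤ, IsCoprime (t + k * e) (d : ℤ) := by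
  classical
  let ps : Finset ℕ := d.primeFactors.filter (fun p => ¬ (p : ℤ) ∣ t)
  refine ⟨∏ p ∈ ps, (p : ℤ), isCoprime_of_forall_prime _ _ fun p hp hpd hdvd => ?_⟩
  have hpZ : Prime (p : ℤ) := Nat.prime_iff_prime_int.mp hp
  by_cases hpt : (p : ℤ) ∣ t
  · have h1 : (p : ℤ) ∣ (∏ q ∈ ps, (q : ℤ)) * e := (Int.dvd_add_right hpt).mp hdvd
    rcases hpZ.dvd_or_dvd h1 with h2 | h2
    · obtain ⟨q, hq, hpq⟩ := (Prime.dvd_finsetProd_iff hpZ _).mp h2
      have hq' := (Finset.mem_filter.mp hq)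
      have hqp : q.Prime := Nat.prime_of_mem_primeFactors hq'.1
      have : p = q := (Nat.prime_dvd_prime_iff_eq hp hqp).mp (Int.natCast_dvd_natCast.mp hpq)
      exact hq'.2 (this ▸ hpt)
    · have h3 : p ∣ Nat.gcd d e := Nat.dvd_gcd hpd (Int.natCast_dvd_natCast.mp h2)
      have h4 : (p : ℤ) ∣ ((Nat.gcd d e : ℕ) : ℤ) := Int.natCast_dvd_natCast.mpr h3
      exact hpZ.not_isUnit (h.isUnit_of_dvd' hpt h4)
  · have hmem : p ∈ ps := Finset.mem_filter.mpr ⟨Nat.mem_primeFactors.mpr ⟨hp, hpd, hd⟩, hpt⟩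
    have h1 : (p : ℤ) ∣ (∏ q ∈ ps, (q : ℤ)) * e :=
      Dvd.dvd.mul_right (Finset.dvd_prod_of_mem (fun q : ℕ => (q : ℤ)) hmem) _
    exact hpt ((Int.dvd_add_left h1).mp hdvd)

end Fermat.Agent.Lib.Gamma0Comb
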