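import Fermat.Agent.Lib.Gamma0Comb.Arith

/-!
# Cosets of `Γ₀(N)` in `SL(2,ℤ)`: normal forms of representatives
-/

set_option autoImplicit false

namespace Fermat.Agent.Lib.Gamma0Comb

open CongruenceSubgroup Matrix Matrix.SpecialLinearGroup Finset
open scoped MatrixGroups

theorem inv_mul_apply_one_zero (g h : SL(2,ℤ)) :
    (g⁻¹ * h) 1 0 = g 0 0 * h 1 0 - g 1 0 * h 0 0 := by
  rw [Matrix.SpecialLinearGroup.coe_mul, Matrix.SpecialLinearGroup.coe_inv,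
    Matrix.adjugate_fin_two]
  simp [Matrix.mul_apply, Fin.sum_univ_two]
  ring

variable (N : ℕ)

/-- (C0) equality of cosets in terms of first columns. -/
theorem mk_eq_mk_iff (g h : SL(2,ℤ)) :
    ((g : SL(2,ℤ) ⧸ Gamma0 N) = h) ↔ (N : ℤ) ∣ g 0 0 * h 1 0 - g 1 0 * h 0 0 := by
  rw [QuotientGroup.eq, Gamma0_mem, ZMod.intCast_zmod_eq_zero_iff_dvd, inv_mul_apply_one_zero]

theorem isCoprime_col (g : SL(2,ℤ)) : IsCoprime (g 0 0) (g 1 0) := by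
  have h := g.det_coe
  rw [Matrix.det_fin_two] at h
  exact ⟨g 1 1, - g 0 1, by linear_combination h⟩

theorem exists_SL_of_col {a c : ℤ} (h : IsCoprime a c) :
    ∃ g : SL(2,ℤ), g 0 0 = a ∧ g 1 0 = c := by
  obtain ⟨u, v, huv⟩ := h
  refine ⟨⟨!![a, -v; c, u], ?_⟩, rfl, rfl⟩
  rw [Matrix.det_fin_two_of]
  linear_combination huv

variable {N}

theorem gcd_dvd_gcd_of_dvd {a c a' c' : ℤ} (h : IsCoprime a c)
    (hN : (N : ℤ) ∣ a * c' - c * a') : Int.gcd c N ∣ Int.gcd c' N := by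
  have h1 : ((Int.gcd c N : ℕ) : ℤ) ∣ c := Int.gcd_dvd_left c N
  have h2 : ((Int.gcd c N : ℕ) : ℤ) ∣ N := Int.gcd_dvd_right c N
  have h3 : ((Int.gcd c N : ℕ) : ℤ) ∣ a * c' := by
    have : a * c' = (a * c' - c * a') + c * a' := by ring
    rw [this]
    exact dvd_add (h2.trans hN) (Dvd.dvd.mul_right h1 _)
  have h4 : IsCoprime ((Int.gcd c N : ℕ) : ℤ) a := (h.of_isCoprime_of_dvd_right h1).symm
  have h5 : ((Int.gcd c N : ℕ) : ℤ) ∣ c' := h4.dvd_of_dvd_mul_left h3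
  exact Int.natCast_dvd_natCast.mp (Int.dvd_coe_gcd h5 h2)

theorem gcd_eq_of_dvd {a c a' c' : ℤ} (h : IsCoprime a c) (h' : IsCoprime a' c')
    (hN : (N : ℤ) ∣ a * c' - c * a') : Int.gcd c N = Int.gcd c' N := by
  refine Nat.dvd_antisymm (gcd_dvd_gcd_of_dvd h hN) (gcd_dvd_gcd_of_dvd (a' := a) h' ?_)
  have : a' * c - c' * a = -(a * c' - c * a') := by ring
  rw [this]
  exact (dvd_neg).mpr hN

theorem exists_rep {d e : ℕ} (hd : d ≠ 0) {t : ℤ}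
    (h : IsCoprime t ((Nat.gcd d e : ℕ) : ℤ)) :
    ∃ g : SL(2,ℤ), g 1 0 = d ∧ (e : ℤ) ∣ g 0 0 - t := by
  obtain ⟨k, hk⟩ := exists_add_mul_coprime d e hd t h
  obtain ⟨g, hg0, hg1⟩ := exists_SL_of_col hk
  exact ⟨g, hg1, ⟨k, by rw [hg0]; ring⟩⟩

/-- Two matrices with the same lower left entry `δ ∣ N` and upper left entries congruent
mod `N/δ` define the same coset. -/
theorem mk_eq_mk_of_rep {δ e : ℕ} (hN : δ * e = N) {g h : SL(2,ℤ)} (hg : g 1 0 = δ)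
    (hh : h 1 0 = δ) (he : (e : ℤ) ∣ g 0 0 - h 0 0) :
    (g : SL(2,ℤ) ⧸ Gamma0 N) = h := by
  rw [mk_eq_mk_iff, hg, hh]
  obtain ⟨k, hk⟩ := he
  refine ⟨k, ?_⟩
  rw [← hN]
  push_cast
  linear_combination (δ : ℤ) * hk

theorem rep_unique {δ δ' : ℕ} (hN0 : N ≠ 0) (hδ : δ ∣ N) (hδ' : δ' ∣ N) {g h : SL(2,ℤ)}
    (hg : g 1 0 = δ) (hh : h 1 0 = δ') (hgh : (g : SL(2,ℤ) ⧸ Gamma0 N) = h) :
    δ = δ' ∧ ((N / δ : ℕ) : ℤ) ∣ g 0 0 - h 0 0 := by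
  rw [mk_eq_mk_iff] at hgh
  have h1 := gcd_eq_of_dvd (isCoprime_col g) (isCoprime_col h) hgh
  rw [hg, hh, Int.gcd_natCast_natCast, Int.gcd_natCast_natCast, Nat.gcd_eq_left hδ,
    Nat.gcd_eq_left hδ'] at h1
  subst h1
  refine ⟨rfl, ?_⟩
  rw [hg, hh] at hgh
  obtain ⟨e, rfl⟩ := hδ
  have hδ0 : δ ≠ 0 := by
    rintro rfl
    simp at hN0
  rw [Nat.mul_div_cancel_left _ (Nat.pos_of_ne_zero hδ0)]
  have h2 : ((δ : ℤ) * e) ∣ δ * (g 0 0 - h 0 0) := by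
    have : (δ : ℤ) * (g 0 0 - h 0 0) = g 0 0 * δ - δ * h 0 0 := by ring
    rw [this]
    exact_mod_cast hgh
  exact (mul_dvd_mul_iff_left (by exact_mod_cast hδ0)).mp h2

/-- Every coset has a representative whose lower left entry is a (positive) divisor of `N`. -/
theorem exists_rep_of_coset (hN0 : N ≠ 0) (x : SL(2,ℤ) ⧸ Gamma0 N) :
    ∃ (g : SL(2,ℤ)) (δ : ℕ), δ ∣ N ∧ g 1 0 = δ ∧ (g : SL(2,ℤ) ⧸ Gamma0 N) = x := by
  obtain ⟨h, rfl⟩ := QuotientGroup.mk_surjective x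
  set a := h 0 0 with ha
  set c := h 1 0 with hc
  have hac : IsCoprime a c := isCoprime_col h
  set δ := Int.gcd c N with hδ
  have hδN : δ ∣ N := Int.natCast_dvd_natCast.mp (Int.gcd_dvd_right c N)
  have hδc : (δ : ℤ) ∣ c := Int.gcd_dvd_left c N
  have hδ0 : δ ≠ 0 := by
    intro h0
    rw [h0] at hδN
    exact hN0 (Nat.eq_zero_of_zero_dvd hδN)
  obtain ⟨e, he⟩ := hδN
  obtain ⟨c1, hc1⟩ := hδc
  -- `c1` and `e` are coprime
  have hce : IsCoprime c1 (e : ℤ) := by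
    have h1 : Int.gcd c N = δ * Int.gcd c1 e := by
      rw [hc1, he]
      push_cast
      rw [Int.gcd_mul_left]
      simp
    have h2 : Int.gcd c1 e = 1 := by
      have h3 : δ * Int.gcd c1 e = δ * 1 := by rw [← h1, mul_one]
      exact Nat.eq_of_mul_eq_mul_left (Nat.pos_of_ne_zero hδ0) h3
    exact Int.isCoprime_iff_gcd_eq_one.mpr h2
  obtain ⟨u, v, huv⟩ := hce
  -- `a * u` is prime to `gcd δ e`
  have h1 : IsCoprime (a * u) ((Nat.gcd δ e : ℕ) : ℤ) := by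
    refine IsCoprime.mul_left ?_ ?_
    · have : ((Nat.gcd δ e : ℕ) : ℤ) ∣ c :=
        (Int.natCast_dvd_natCast.mpr (Nat.gcd_dvd_left δ e)).trans ⟨c1, hc1⟩
      exact hac.of_isCoprime_of_dvd_right this
    · have h2 : IsCoprime u (e : ℤ) := ⟨c1, v, by linear_combination huv⟩
      exact h2.of_isCoprime_of_dvd_right (Int.natCast_dvd_natCast.mpr (Nat.gcd_dvd_right δ e))
  obtain ⟨g, hg1, k, hk⟩ := exists_rep (e := e) hδ0 h1
  refine ⟨g, δ, ⟨e, he⟩, hg1, ?_⟩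
  rw [mk_eq_mk_iff, hg1, ← hc, ← ha, he]
  refine ⟨k * c1 - a * v, ?_⟩
  push_cast
  have hg0 : g 0 0 = a * u + e * k := by linear_combination hk
  rw [hg0, hc1]
  linear_combination (δ : ℤ) * a * huv

end Fermat.Agent.Lib.Gamma0Comb
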